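import Fermat.Agent.S33.TopDefs

/-!
# S33 top: skeleton of the final assembly (target file: Fermat/Agent/S33/Top.lean)

Everything used is landed: `TopAlg` (`OrdSetup.step1`, `OrdSetup.step2`, `step3`, `ActsOn`),
`TopTransfer` (`exists_rep`, `det_sub_natCast_mem`, `exists_transfer`, `isUnit_π`,
`θ_ne_zero_of_notMem`), `TopLin` (`exists_noncomm`, `exists_basis_range`, `range_eq_ker`),
`S31.eq_zero_of_trace_mul_eq_zero`, `S30.eq_of_forall_sub_mem`.
-/

set_option autoImplicit false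
set_option linter.unusedSectionVars false

namespace Fermat.Agent.S33

open Polynomial IsLocalRing CuspForm Fermat.Agent.S30 Fermat.Agent.S31 Fermat.Agent.GAL

/-- T1.  An element with nonzero image in the finite field `κ` acts injectively on a primary
module: `θ' (D ^ (q - 1) - 1) = 0`, and `(D ^ (q - 1) - 1) ^ n • m = ± m` if `D • m = 0`. -/
theorem inj_of_theta_ne_zero {R κ W : Type*} [CommRing R] [Field κ] [Finite κ] [AddCommGroup W]
    [Module R W] (θ' : R →+* κ) {D : R} (hD : θ' D ≠ 0) (m : W)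
    (hprim : ∀ Q : R, θ' Q = 0 → ∃ n : ℕ, Q ^ n • m = 0) (hm : D • m = 0) : m = 0 := by
  sorry

variable {p : ℕ} {N : ℕ} [NeZero N] {S : Finset ℕ}
  {𝒪 : Type} [CommRing 𝒪] [IsDomain 𝒪] [IsDiscreteValuationRing 𝒪]
  [IsAdicComplete (IsLocalRing.maximalIdeal 𝒪) 𝒪]
  {θ : CuspForm.heckeAlgebra N 2 (↑S : Set ℕ) →+* IsLocalRing.ResidueField 𝒪}
  {T : Type} [CommRing T] [IsLocalRing T] [IsNoetherianRing T]
  [IsAdicComplete (IsLocalRing.maximalIdeal T) T] [Algebra 𝒪 T] [IsLocalHom (algebraMap 𝒪 T)]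
  [Module.Finite 𝒪 T] [Module.Free 𝒪 T]

/-- **S33 from the universal tower.** -/
theorem result_of_utower [Finite (IsLocalRing.ResidueField 𝒪)] (hp : p.Prime)
    (hp𝒪 : (p : 𝒪) ∈ IsLocalRing.maximalIdeal 𝒪) (hpS : p ∈ S)
    (hNS : ∀ q : ℕ, q.Prime → q ∣ N → q ∈ S)
    (H : CuspForm.HeckeGaloisRepDatum N (↑S : Set ℕ) 𝒪 θ T)
    (U : UTower N p S) (hI : InertiaCyclo p) (hord : OrdinaryAt U (θ.comp (evHA N S))) :
    H.ρ.IsOrdinaryAt p := by
  sorry

end Fermat.Agent.S33
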